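import Mathlib.FieldTheory.Finite.Basic
import Fermat.Agent.RT.GammaH.LevelOps

/-!
# Corestriction when `ST` has no fixed coset

Corestriction `Hom(Γ', A) → Hom(Γ, A)` for `Γ' ≤ Γ` normal when `Γ` has no elliptic element of
order 6: only `2` has to be invertible on the coefficients. A function whose sums over the orbits
of `ST` vanish is `w - w ∘ ST`, with `w` chosen orbit by orbit.
-/

set_option autoImplicit false

noncomputable section

namespace Fermat.Agent.Lifting.Module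

open Fermat.Agent.RT.GammaH Matrix.SpecialLinearGroup
open scoped MatrixGroups

/-- `ST` fixes no coset of `Γ`. -/
def RFree (Γ : Subgroup SL(2, ℤ)) : Prop := ∀ x : SL(2, ℤ) ⧸ Γ, Gamma0.ST • x ≠ x

/-- No element of `Γ₀(M)` has order `3` or `6` if a prime `v ≡ 2 (mod 3)` divides `M`. -/
theorem rFree_gammaH {M v : ℕ} {K : Subgroup (ZMod M)ˣ} (hv : v.Prime) (hvM : v ∣ M)
    (h3 : v % 3 = 2) : RFree (gammaH M K) := by
  have : Fact v.Prime := ⟨hv⟩
  intro x
  induction x using QuotientGroup.induction_on with | _ g => ?_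
  rw [MulAction.Quotient.smul_coe, smul_eq_mul, Ne, QuotientGroup.eq]
  intro h
  have h' := inv_mem h
  rw [mul_inv_rev, inv_inv, ← mul_assoc] at h'
  obtain ⟨hc, -, -, -⟩ := h'
  set s := g⁻¹ * Gamma0.ST * g with hs
  set t : ℤ := (Gamma0.ST : SL(2, ℤ)) 0 0 + (Gamma0.ST : SL(2, ℤ)) 1 1 with ht
  have htr : s 0 0 + s 1 1 = t := by
    rw [ht, ← Matrix.trace_fin_two, hs, coe_mul, Matrix.trace_mul_comm, ← coe_mul, ← mul_assoc,
      mul_inv_cancel, one_mul, Matrix.trace_fin_two]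
  have ht2 : t * t = 1 := by rw [ht]; decide
  have hdet := Gamma0.det_eq s
  have hc' : (s 1 0 : ZMod v) = 0 := by
    have := congrArg (ZMod.castHom hvM (ZMod v)) hc
    rwa [map_intCast, map_zero] at this
  set a : ZMod v := (s 0 0 : ZMod v)
  have hd : a * ((t : ZMod v) - a) = 1 := by
    have h1 := congrArg (Int.cast : ℤ → ZMod v) hdet
    have h2 := congrArg (Int.cast : ℤ → ZMod v) htr
    push_cast at h1 h2
    rw [← h2]
    rw [hc'] at h1
    linear_combination h1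
  have htt : (t : ZMod v) * t = 1 := by exact_mod_cast congrArg (Int.cast : ℤ → ZMod v) ht2
  set b : ZMod v := -(t : ZMod v) * a with hb
  have hb1 : b * b + b + 1 = 0 := by
    rw [hb]
    linear_combination a * a * htt - hd
  have hb3 : b ^ 3 = 1 := by linear_combination (b - 1) * hb1
  have hb0 : b ≠ 0 := fun h0 => by simp [h0] at hb1
  have hpow : b ^ (v - 1) = 1 := ZMod.pow_card_sub_one_eq_one hb0
  have hbone : b = 1 := by
    obtain ⟨k, hk⟩ : ∃ k, v - 1 = 3 * k + 1 := ⟨(v - 2) / 3, by have := hv.two_le; omega⟩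
    rw [hk, pow_succ, pow_mul, hb3, one_pow, one_mul] at hpow
    exact hpow
  rw [hbone] at hb1
  have h30 : ((3 : ℕ) : ZMod v) = 0 := by push_cast; linear_combination hb1
  rw [ZMod.natCast_eq_zero_iff] at h30
  have := (Nat.prime_dvd_prime_iff_eq hv Nat.prime_three).1 h30
  omega

variable {Γ' Γ : Subgroup SL(2, ℤ)} {ι : Type*} {σ : ι → SL(2, ℤ)} {A : Type*} [AddCommGroup A]
  {R : Type*} [Semiring R] [Module R A]

/-- The three translates of a coset by `ST` return to it. -/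
theorem ST_smul_three (hneg : -1 ∈ Γ) (x : SL(2, ℤ) ⧸ Γ) :
    Gamma0.ST • Gamma0.ST • Gamma0.ST • x = x := by
  rw [← mul_smul, ← mul_smul, ← pow_two, ← pow_succ, Gamma0.ST_pow_three,
    Gamma0.neg_one_smul_coset hneg]

/-- One coset in each orbit of `ST`. -/
def thirdSet (Γ : Subgroup SL(2, ℤ)) : Set (SL(2, ℤ) ⧸ Γ) :=
  {x | WellOrderingRel x (Gamma0.ST • x) ∧ WellOrderingRel x (Gamma0.ST • Gamma0.ST • x)}

theorem thirdSet_cases (hneg : -1 ∈ Γ) (hR : RFree Γ) (x : SL(2, ℤ) ⧸ Γ) :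
    (x ∈ thirdSet Γ ∧ Gamma0.ST • x ∉ thirdSet Γ ∧ Gamma0.ST • Gamma0.ST • x ∉ thirdSet Γ) ∨
    (x ∉ thirdSet Γ ∧ Gamma0.ST • x ∈ thirdSet Γ ∧ Gamma0.ST • Gamma0.ST • x ∉ thirdSet Γ) ∨
    (x ∉ thirdSet Γ ∧ Gamma0.ST • x ∉ thirdSet Γ ∧ Gamma0.ST • Gamma0.ST • x ∈ thirdSet Γ) := by
  have h3 := ST_smul_three hneg x
  set y := Gamma0.ST • x with hy
  set z := Gamma0.ST • y with hz
  have hxy : x ≠ y := (hR x).symm
  have hyz : y ≠ z := (hR y).symm
  have hzx : z ≠ x := fun h => hR z (h3.trans h.symm)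
  simp only [thirdSet, Set.mem_ofPred_eq]
  rw [← hy, ← hz, h3, ← hy]
  have asy : ∀ a b : SL(2, ℤ) ⧸ Γ, WellOrderingRel a b → ¬ WellOrderingRel b a :=
    fun a b => asymm_of WellOrderingRel
  have tr : ∀ a b c : SL(2, ℤ) ⧸ Γ, WellOrderingRel a b → WellOrderingRel b c →
      WellOrderingRel a c := fun a b c => trans_of WellOrderingRel
  rcases trichotomous_of WellOrderingRel x y with h1 | h1 | h1
  · rcases trichotomous_of WellOrderingRel x z with h2 | h2 | h2
    · exact Or.inl ⟨⟨h1, h2⟩, fun h => asy _ _ h1 h.2, fun h => asy _ _ h2 h.1⟩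
    · exact absurd h2.symm hzx
    · exact Or.inr (Or.inr ⟨fun h => asy _ _ h2 h.2, fun h => asy _ _ h1 h.2,
        h2, tr _ _ _ h2 h1⟩)
  · exact absurd h1 hxy
  · rcases trichotomous_of WellOrderingRel y z with h2 | h2 | h2
    · exact Or.inr (Or.inl ⟨fun h => asy _ _ h1 h.1, ⟨h2, h1⟩, fun h => asy _ _ h2 h.2⟩)
    · exact absurd h2 hyz
    · exact Or.inr (Or.inr ⟨fun h => asy _ _ h1 h.1, fun h => asy _ _ h2 h.1,
        tr _ _ _ h2 h1, h2⟩)

/-- A function whose sums over the orbits of `ST` vanish, cut by representatives of the orbits. -/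
def thirdCut {Δ : Subgroup SL(2, ℤ)} (π : SL(2, ℤ) ⧸ Δ → SL(2, ℤ) ⧸ Γ)
    (v : SL(2, ℤ) ⧸ Δ → A) (y : SL(2, ℤ) ⧸ Δ) : A :=
  (thirdSet Γ).indicator (fun _ => v y) (π y) +
    (thirdSet Γ).indicator (fun _ => v y + v (Gamma0.ST • y)) (Gamma0.ST • π y)

theorem thirdCut_spec {Δ : Subgroup SL(2, ℤ)} (hneg : -1 ∈ Γ) (hR : RFree Γ)
    (π : SL(2, ℤ) ⧸ Δ → SL(2, ℤ) ⧸ Γ) (hπ : ∀ y, π (Gamma0.ST • y) = Gamma0.ST • π y)
    {v : SL(2, ℤ) ⧸ Δ → A}
    (hv : ∀ y, v y + v (Gamma0.ST • y) + v (Gamma0.ST • Gamma0.ST • y) = 0) (y : SL(2, ℤ) ⧸ Δ) :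
    thirdCut π v y - thirdCut π v (Gamma0.ST • y) = v y := by
  classical
  simp only [thirdCut, hπ]
  rcases thirdSet_cases hneg hR (π y) with ⟨a, b, c⟩ | ⟨a, b, c⟩ | ⟨a, b, c⟩
  · rw [Set.indicator_of_mem a, Set.indicator_of_notMem b, Set.indicator_of_notMem b,
      Set.indicator_of_notMem c]
    abel
  · rw [Set.indicator_of_notMem a, Set.indicator_of_mem b, Set.indicator_of_mem b,
      Set.indicator_of_notMem c]
    abel
  · rw [Set.indicator_of_notMem a, Set.indicator_of_notMem b, Set.indicator_of_notMem b,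
      Set.indicator_of_mem c]
    rw [zero_add, zero_add, zero_sub, neg_eq_iff_add_eq_zero, ← hv y]
    abel

theorem isRelPair_half_sub (hneg : -1 ∈ Γ') (a : R) (w w' : SL(2, ℤ) ⧸ Γ' → A) :
    Gamma0.IsRelPair (IsCoreps.projS R a w) (fun y => w' y - w' (Gamma0.ST • y)) := by
  refine ⟨(IsCoreps.isRelPair_proj hneg a a w w').1, fun x => ?_⟩
  dsimp only
  rw [ST_smul_three hneg x]
  abel

theorem exists_half (h2 : IsUnit (2 : R)) : ∃ a : R, ∀ x : A, a • (x + x) = x := by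
  obtain ⟨u, hu⟩ := h2
  refine ⟨(u⁻¹ : Rˣ), fun x => ?_⟩
  rw [← two_nsmul, ← Nat.cast_smul_eq_nsmul R, Nat.cast_ofNat, ← hu, ← Units.smul_def,
    ← Units.smul_def, inv_smul_smul]

variable [Fintype ι] (h : IsCoreps Γ' Γ σ)

include h in
theorem cores_surjective_of_rFree (hneg : -1 ∈ Γ') (hR : RFree Γ) (h2 : IsUnit (2 : R)) :
    Function.Surjective (h.cores (A := A) R) := by
  intro φ
  obtain ⟨c₀, hc₀, ⟨hu, hv⟩, rfl⟩ := Gamma0.exists_cocycle_toHom (h.le hneg) φ
    (IsCoreps.apply_neg_one h2 (h.le hneg) φ)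
  obtain ⟨a, ha⟩ := exists_half (A := A) h2
  obtain ⟨w, hw⟩ := h.fibreSum_surjective (c₀ ModularGroup.S)
  obtain ⟨w', hw'⟩ := h.fibreSum_surjective (thirdCut id (c₀ Gamma0.ST))
  obtain ⟨c, hc, hcS, hcR⟩ := Gamma0.exists_cocycle hneg (isRelPair_half_sub hneg a w w')
  refine ⟨hc.toHom, ?_⟩
  rw [h.cores_toHom hc]
  congr 1
  refine (h.isCocycle_fibreSum hc).ext_of_eq hc₀ (funext fun x => ?_) (funext fun x => ?_)
  · rw [hcS, IsCoreps.projS, h.fibreSum_smul, h.fibreSum_sub, h.fibreSum_comp_smul, hw, hw,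
      show c₀ ModularGroup.S (ModularGroup.S • x) = -c₀ ModularGroup.S x from
      eq_neg_of_add_eq_zero_right (hu x), sub_neg_eq_add, ha]
  · rw [hcR, show (fun y => w' y - w' (Gamma0.ST • y)) = w' - fun y => w' (Gamma0.ST • y) from rfl,
      h.fibreSum_sub, h.fibreSum_comp_smul, hw', hw']
    exact thirdCut_spec (h.le hneg) hR id (fun _ => rfl) hv x

include h in
theorem exists_eq_sum_conjOp_of_rFree (hneg : -1 ∈ Γ') (hR : RFree Γ) (h2 : IsUnit (2 : R))
    {φ : Additive Γ' →+ A} (hφ : h.cores R φ = 0) :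
    ∃ χ : ι → (Additive Γ' →+ A), φ = ∑ i, (h.conjOp R i (χ i) - χ i) := by
  classical
  obtain ⟨c, hc, hrel, rfl⟩ := Gamma0.exists_cocycle_toHom hneg φ
    (IsCoreps.apply_neg_one h2 hneg φ)
  obtain ⟨a, ha⟩ := exists_half (A := A) h2
  rw [h.cores_toHom hc] at hφ
  obtain ⟨f, hf⟩ := ((h.isCocycle_fibreSum hc).toHom_eq_zero_iff).1 hφ
  obtain ⟨f', hf'⟩ := h.fibreSum_surjective f
  set c' : SL(2, ℤ) → SL(2, ℤ) ⧸ Γ' → A := fun g y => c g y - (f' (g • y) - f' y) with hc'def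
  have hc' : Gamma0.IsCocycle c' := fun g k y => by
    simp only [hc'def]
    rw [hc, mul_smul]
    abel
  have hsum : ∀ g x, h.fibreSum (c' g) x = 0 := fun g x => by
    rw [show c' g = c g - ((fun y => f' (g • y)) - f') from rfl, h.fibreSum_sub, h.fibreSum_sub,
      h.fibreSum_comp_smul, hf', hf', hf g x, sub_self]
  have htoHom : hc.toHom = hc'.toHom := AddMonoidHom.ext fun x => by
    obtain ⟨γ, rfl⟩ := Additive.ofMul.surjective x
    rw [Gamma0.IsCocycle.toHom_apply, Gamma0.IsCocycle.toHom_apply]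
    show _ = c _ _ - _
    have hfix : (γ : SL(2, ℤ)) • (QuotientGroup.mk 1 : SL(2, ℤ) ⧸ Γ') = QuotientGroup.mk 1 := by
      rw [MulAction.Quotient.smul_coe, smul_eq_mul, mul_one, QuotientGroup.eq]
      simp
    rw [hfix, sub_self, sub_zero]
  have hrelS : ∀ y, c' ModularGroup.S (ModularGroup.S • y) = -c' ModularGroup.S y := fun y => by
    refine eq_neg_of_add_eq_zero_right ?_
    simp only [hc'def, ← mul_smul ModularGroup.S ModularGroup.S, Gamma0.S_mul_S,
      Gamma0.neg_one_smul_coset hneg]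
    rw [← hrel.1 y]
    abel
  have hrelR : ∀ y, c' Gamma0.ST y + c' Gamma0.ST (Gamma0.ST • y) +
      c' Gamma0.ST (Gamma0.ST • Gamma0.ST • y) = 0 := fun y => by
    simp only [hc'def]
    rw [ST_smul_three hneg y, ← hrel.2 y]
    abel
  set w : SL(2, ℤ) ⧸ Γ' → A := thirdCut h.proj (c' Gamma0.ST) with hwdef
  have hw0 : ∀ x, h.fibreSum w x = 0 := fun x => by
    obtain ⟨y, rfl⟩ := h.proj_surjective x
    rw [h.fibreSum_eq rfl]
    simp only [hwdef, thirdCut, h.proj_rightMul, Finset.sum_add_distrib]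
    have e1 : ∑ i, c' Gamma0.ST (h.rightMul i y) = 0 := by rw [← h.fibreSum_eq rfl, hsum]
    have e2 : ∑ i, c' Gamma0.ST (Gamma0.ST • h.rightMul i y) = 0 := by
      simp only [← h.rightMul_smul]
      rw [← h.fibreSum_eq rfl, hsum]
    have e3 : ∀ {s : Set (SL(2, ℤ) ⧸ Γ)} (z : SL(2, ℤ) ⧸ Γ) (g : ι → A), (∑ i, g i) = 0 →
        (∑ i, s.indicator (fun _ => g i) z) = 0 := fun {s} z g hg => by
      by_cases hz : z ∈ s
      · simp only [Set.indicator_of_mem hz, hg]
      · simp only [Set.indicator_of_notMem hz, Finset.sum_const_zero]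
    rw [e3 _ _ e1, zero_add]
    refine e3 _ _ ?_
    rw [Finset.sum_add_distrib, e1, e2, add_zero]
  obtain ⟨u, hu⟩ := h.exists_eq_sum_rightMul (hsum ModularGroup.S)
  obtain ⟨v, hv⟩ := h.exists_eq_sum_rightMul hw0
  choose d hd hdS hdR using fun i =>
    Gamma0.exists_cocycle hneg (isRelPair_half_sub hneg a (u i) (v i))
  refine ⟨fun i => (hd i).toHom, ?_⟩
  set e : SL(2, ℤ) → SL(2, ℤ) ⧸ Γ' → A :=
    fun g y => ∑ i, (d i g (h.rightMul i y) - d i g y) with hedef
  have he : Gamma0.IsCocycle e := fun g k y => by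
    simp only [hedef, ← Finset.sum_add_distrib]
    refine Finset.sum_congr rfl fun i _ => ?_
    rw [hd i g k, hd i g k, h.rightMul_smul]
    abel
  have hce : c' = e := by
    refine hc'.ext_of_eq he (funext fun y => ?_) (funext fun y => ?_)
    · conv_lhs => rw [← ha (c' ModularGroup.S y)]
      rw [← sub_neg_eq_add, ← hrelS, hu, hu, ← Finset.sum_sub_distrib, Finset.smul_sum]
      refine Finset.sum_congr rfl fun i _ => ?_
      simp only [hdS, IsCoreps.projS, Pi.smul_apply, Pi.sub_apply, h.rightMul_smul, ← smul_sub]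
      congr 1
      abel
    · rw [← thirdCut_spec (h.le hneg) hR h.proj (fun z => h.proj_smul _ z) hrelR y, ← hwdef,
        hv, hv, ← Finset.sum_sub_distrib]
      refine Finset.sum_congr rfl fun i _ => ?_
      simp only [hdR, h.rightMul_smul]
      abel
  rw [htoHom]
  refine AddMonoidHom.ext fun x => ?_
  obtain ⟨γ, rfl⟩ := Additive.ofMul.surjective x
  rw [AddMonoidHom.finsetSum_apply, Gamma0.IsCocycle.toHom_apply, hce]
  refine Finset.sum_congr rfl fun i _ => ?_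
  rw [AddMonoidHom.sub_apply, h.conjOp_toHom (hd i) i]
  rfl

end Fermat.Agent.Lifting.Module
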