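import Fermat.Agent.RT.GammaH.Local
import Fermat.Agent.Lifting.Module.CoresThree

/-!
# Freeness of the localised cohomology of `Γ_H` for every odd residual characteristic

`RT.GammaH.exists_freeData` without inverting `3`: for `p = 3` a prime `≡ 2 (mod 3)` in the level
kills the elliptic elements of order `3` and `6` of `Γ₀(L)`.
-/

set_option autoImplicit false

noncomputable section

namespace Fermat.Agent.Lifting.Module

open IsLocalRing MvPolynomial
open Fermat.Agent.RT.GammaH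

/-- The hypothesis on the level making the localised cohomology free over the diamond operators. -/
def FreeLevel (p L : ℕ) : Prop := p = 3 → ∃ v : ℕ, v.Prime ∧ v ∣ L ∧ v % 3 = 2

theorem FreeLevel.mono {p L L' : ℕ} (h : FreeLevel p L) (hd : L ∣ L') : FreeLevel p L' := fun hp =>
  let ⟨v, hv, hvL, h3⟩ := h hp
  ⟨v, hv, hvL.trans hd, h3⟩

theorem freeLevel_of_ne {p : ℕ} (hp : p ≠ 3) (L : ℕ) : FreeLevel p L := fun h => absurd h hp

theorem isUnit_two' {O : Type} [CommRing O] [IsLocalRing O] {p : ℕ} [hp : Fact p.Prime]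
    [CharP (ResidueField O) p] (hp2 : p ≠ 2) : IsUnit (2 : O) := by
  exact_mod_cast isUnit_natCast (O := O) (p := p) (n := 2) fun h =>
    hp2 ((Nat.prime_dvd_prime_iff_eq hp.out Nat.prime_two).1 h)

variable {O : Type} [CommRing O] [IsLocalRing O] {L : ℕ} {K : Subgroup (ZMod L)ˣ}
  {p : ℕ} [Fact p.Prime] [CharP (ResidueField O) p] {A : Type} [AddCommGroup A] [Module O A]
  [Fintype ((ZMod L)ˣ ⧸ K)]

/-- Corestriction to `Γ₀(L)` is onto. -/
theorem coresTop_surjective_of_freeLevel (hp2 : p ≠ 2) (hfree : FreeLevel p L) (hneg : -1 ∈ K) :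
    Function.Surjective (coresTop (A := A) O K) := by
  by_cases h3 : IsUnit (3 : O)
  · exact coresTop_surjective O (isUnit_two' hp2) h3 hneg
  · have hp3 : p = 3 := by_contra fun hne => h3 (by
      exact_mod_cast isUnit_natCast (O := O) (p := p) (n := 3) fun h =>
        hne ((Nat.prime_dvd_prime_iff_eq Fact.out Nat.prime_three).1 h))
    obtain ⟨v, hv, hvL, hv3⟩ := hfree hp3
    exact cores_surjective_of_rFree (isCoreps_deltaRep (K := K)) (neg_one_mem_gammaH hneg)
      (rFree_gammaH hv hvL hv3) (isUnit_two' hp2)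

/-- The kernel of corestriction to `Γ₀(L)` is spanned by the `⟨u⟩ φ - φ`. -/
theorem exists_eq_sum_diamond_of_freeLevel (hp2 : p ≠ 2) (hfree : FreeLevel p L) (hneg : -1 ∈ K)
    {φ : Additive (gammaH L K) →+ A} (hφ : coresTop O K φ = 0) :
    ∃ y : (ZMod L)ˣ ⧸ K → (Additive (gammaH L K) →+ A),
      φ = ∑ q, (diamond L K O q.out (y q) - y q) := by
  by_cases h3 : IsUnit (3 : O)
  · exact exists_eq_sum_diamond O (isUnit_two' hp2) h3 hneg hφ
  · have hp3 : p = 3 := by_contra fun hne => h3 (by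
      exact_mod_cast isUnit_natCast (O := O) (p := p) (n := 3) fun h =>
        hne ((Nat.prime_dvd_prime_iff_eq Fact.out Nat.prime_three).1 h))
    obtain ⟨v, hv, hvL, hv3⟩ := hfree hp3
    exact exists_eq_sum_conjOp_of_rFree (isCoreps_deltaRep (K := K)) (neg_one_mem_gammaH hneg)
      (rFree_gammaH hv hvL hv3) (isUnit_two' hp2) hφ

section Free

variable {Δ : Type} [CommGroup Δ] {ψ : (ZMod L)ˣ →* Δ} (S : Finset ℕ) (abar : ℕ → ResidueField O)
  [IsDomain O] [IsDiscreteValuationRing O] [Finite (ResidueField O)]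
  [IsAdicComplete (maximalIdeal O) O] [Fintype Δ] [NeZero L]
  {e : OpRing O L S} (heH : IsLocalizer (resIdeal S abar L) (HomMod O S K O) e)
  (heH₀ : IsLocalizer (resIdeal S abar L) (HomMod O S (⊤ : Subgroup (ZMod L)ˣ) O) e)

omit [Fintype ((ZMod L)ˣ ⧸ K)] in
include heH heH₀ in
/-- The localised module of `ker ψ` is free over `O[Δ]` of the rank of that of `Γ₀(L)`. -/
theorem exists_basis_of_isLocalizer (hp2 : p ≠ 2) (hfree : FreeLevel p L) (hΔ : IsPGroup p Δ)
    (hψ : Function.Surjective ψ) (hK : ∀ u, u ∈ K ↔ ψ u = 1)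
    (hS : ∀ v : ℕ, v.Prime → v ∣ L → v ∈ S)
    (hEis : ∃ ℓ : ℕ, ℓ.Prime ∧ ℓ ∉ S ∧ abar ℓ ≠ 1 + (ℓ : ResidueField O)) :
    ∃ b : Fin (Module.finrank O (localPart O e (HomMod O S (⊤ : Subgroup (ZMod L)ˣ) O))) →
        localPart O e (HomMod O S K O),
      Function.Bijective fun c :
          Fin (Module.finrank O (localPart O e (HomMod O S (⊤ : Subgroup (ZMod L)ˣ) O))) × Δ →₀ O =>
        c.sum fun iq x =>
          x • localAct O e (HomMod O S K O) (X (Sum.inl (psiInv hψ iq.2))) (b iq.1) := by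
  classical
  have := Fintype.ofFinite ((ZMod L)ˣ ⧸ K)
  set H := HomMod O S K O
  set H₀ := HomMod O S (⊤ : Subgroup (ZMod L)ˣ) O
  have hneg : -1 ∈ K := (hK _).2 (MonoidHom.mem_ker.1 (neg_one_mem_ker ψ hp2 hΔ))
  obtain ⟨E, hEout⟩ := exists_deltaEquiv hK hψ
  have hE : ∀ (q : Δ) (x : H), (X (Sum.inl (psiInv hψ q)) : OpRing O L S) • x =
      diamond L K O (E q).out x := fun q x => by
    rw [X_inl_smul, diamond_congr_ker hK (u := psiInv hψ q) (v := (E q).out)]
    exact (Function.surjInv_eq hψ q).trans (hEout q).symm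
  obtain ⟨ℓ, hℓp, hℓS, hℓ⟩ := hEis
  obtain ⟨ϖ, hϖ⟩ := IsDiscreteValuationRing.exists_irreducible O
  set δ : Δ → OpRing O L S := fun q => X (Sum.inl (psiInv hψ q)) with hδ
  set C' : H →ₗ[OpRing O L S] H₀ := coresLin S K O
  set R' : H₀ →ₗ[OpRing O L S] H := resLin S K O
  have hC : Function.Surjective C' := coresTop_surjective_of_freeLevel (O := O) (A := O) (p := p) hp2 hfree hneg
  set t₀ : OpRing O L S := X (Sum.inr ⟨ℓ, hℓp, hℓS⟩) - C ((1 : O) + (ℓ : O))
  refine exists_freeBasis (O := O) (p := p) (𝔸 := OpRing O L S) (Δ := Δ) (H := H) (H₀ := H₀)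
    hΔ (resIdeal_ne_top S abar) heH heH₀ δ (fun q => ?_)
    (fun x => ?_) (fun q q' x => ?_) C' hC (fun x hx => ?_) R' (fun x => ?_) hϖ
    (t := t₀) ?_ (fun x y hxy => ?_)
  · rw [mem_resIdeal, map_sub, opRes_inl, map_one, sub_self]
  · rw [hδ, X_inl_smul]
    exact diamond_of_mem O ((hK _).2 (Function.surjInv_eq hψ 1)) x
  · rw [X_inl_smul, X_inl_smul, X_inl_smul]
    refine (LinearMap.congr_fun (diamond_congr_ker hK (v := psiInv hψ q * psiInv hψ q') ?_) x).trans
      (diamond_mul O _ _ x)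
    rw [map_mul]
    simp only [psiInv, Function.surjInv_eq hψ]
  · obtain ⟨y, hy⟩ := exists_eq_sum_diamond_of_freeLevel (O := O) (A := O) (p := p)
      hp2 hfree hneg hx
    refine ⟨fun q => y (E q), ?_⟩
    refine (hy.trans (E.sum_comp fun i => diamond L K O i.out (y i) - y i).symm).trans ?_
    exact Finset.sum_congr rfl fun q _ => congrArg₂ HSub.hSub (hE q (y (E q))).symm rfl
  · simp only [hδ, hE]
    exact (resTop_coresTop O x).trans (E.sum_comp fun i => diamond L K O i.out x).symm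
  · rw [mem_resIdeal, map_sub, opRes_inr, ← algebraMap_eq, AlgHom.commutes,
      ResidueField.algebraMap_eq, map_add, map_one, map_natCast, sub_eq_zero]
    exact hℓ
  · have : Fact ℓ.Prime := ⟨hℓp⟩
    let r : O →ₗ[O] ResidueField O := Algebra.linearMap O (ResidueField O)
    have h0 : resTop O K (mapCoeff r x) = 0 := by
      show resLin S K _ (mapCoeff r x) = 0
      rw [← mapCoeff_resLin, hxy]
      refine DFunLike.ext _ _ fun γ => ?_
      show residue O (ϖ * y γ) = 0
      rw [map_mul, (residue_eq_zero_iff ϖ).2 hϖ.not_isUnit, zero_mul]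
    have hT : hecke L ⊤ ℓ O (mapCoeff r x) = (ℓ + 1) • mapCoeff r x :=
      hecke_of_resTop_eq_zero' O h0 fun hc => hℓS (hS ℓ hℓp hc)
    set t : OpRing O L S := X (Sum.inr ⟨ℓ, hℓp, hℓS⟩) - C ((1 : O) + (ℓ : O))
    have hzero : mapCoeff r (t • x) = 0 := by
      rw [map_smul, sub_smul, X_inr_smul, hT, ← algebraMap_eq, algebraMap_smul, sub_eq_zero,
        ← Nat.cast_smul_eq_nsmul O (ℓ + 1)]
      congr 1
      push_cast
      ring
    refine exists_eq_smul S hϖ fun γ => ?_
    have hγ : residue O ((t • x : H₀) γ) = 0 := DFunLike.congr_fun hzero γ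
    rw [residue_eq_zero_iff, hϖ.maximalIdeal_eq, Ideal.mem_span_singleton] at hγ
    exact hγ


omit heH heH₀ [Fintype ((ZMod L)ˣ ⧸ K)] in
/-- The shape of `RT.GammaH.exists_freeData`, for every odd `p`. -/
theorem exists_freeData_odd (hp2 : p ≠ 2) (hfree : FreeLevel p L) (hΔ : IsPGroup p Δ)
    (hψ : Function.Surjective ψ) (hK : ∀ u, u ∈ K ↔ ψ u = 1)
    (hS : ∀ v : ℕ, v.Prime → v ∣ L → v ∈ S)
    (hEis : ∃ ℓ : ℕ, ℓ.Prime ∧ ℓ ∉ S ∧ abar ℓ ≠ 1 + (ℓ : ResidueField O)) :
    ∃ e : OpRing O L S, IsLocalizer (resIdeal S abar L) (HomMod O S K O) e ∧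
      IsLocalizer (resIdeal S abar L) (HomMod O S (⊤ : Subgroup (ZMod L)ˣ) O) e ∧
      ∃ b : Fin (Module.finrank O (localPart O e (HomMod O S (⊤ : Subgroup (ZMod L)ˣ) O))) →
          localPart O e (HomMod O S K O),
        Function.Bijective fun c :
            Fin (Module.finrank O (localPart O e (HomMod O S (⊤ : Subgroup (ZMod L)ˣ) O))) × Δ →₀ O =>
          c.sum fun iq x =>
            x • localAct O e (HomMod O S K O) (X (Sum.inl (psiInv hψ iq.2))) (b iq.1) := by
  obtain ⟨e, he⟩ := exists_isLocalizer (O := O) (resIdeal S abar L)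
    (HomMod O S K O × HomMod O S (⊤ : Subgroup (ZMod L)ˣ) O)
  have h1 := he.of_injective (LinearMap.inl (OpRing O L S) _ _) LinearMap.inl_injective
  have h2 := he.of_injective (LinearMap.inr (OpRing O L S) _ _) LinearMap.inr_injective
  exact ⟨e, h1, h2, exists_basis_of_isLocalizer S abar h1 h2 hp2 hfree hΔ hψ hK hS hEis⟩

omit heH heH₀ [NeZero L] [Fintype Δ] [IsDomain O] [IsDiscreteValuationRing O]
  [Finite (ResidueField O)] [IsAdicComplete (maximalIdeal O) O] in
/-- Corestriction maps the localised module of `K` into that of `Γ₀(L)`. -/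
theorem coresLin_mem_localPart {x : HomMod O S K O} (hx : x ∈ localPart O e (HomMod O S K O)) :
    coresLin S K O x ∈ localPart O e (HomMod O S (⊤ : Subgroup (ZMod L)ˣ) O) := by
  rw [mem_localPart, ← map_smul, hx]

include heH in
omit [Fintype Δ] [Finite (ResidueField O)] [IsAdicComplete (maximalIdeal O) O] [IsDomain O]
  [IsDiscreteValuationRing O] [NeZero L] in
/-- Corestriction is onto the localised module of `Γ₀(L)`. -/
theorem exists_coresLin_eq (hp2 : p ≠ 2) (hfree : FreeLevel p L) (hneg : -1 ∈ K)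
    {y : HomMod O S (⊤ : Subgroup (ZMod L)ˣ) O}
    (hy : y ∈ localPart O e (HomMod O S (⊤ : Subgroup (ZMod L)ˣ) O)) :
    ∃ x ∈ localPart O e (HomMod O S K O), coresLin S K O x = y := by
  obtain ⟨x, hx⟩ := coresTop_surjective_of_freeLevel (O := O) (A := O) (p := p) hp2 hfree hneg
    (toHomMod.symm y)
  refine ⟨e • toHomMod x, heH.idem _, ?_⟩
  rw [map_smul, show coresLin S K O (toHomMod x) = y from hx, mem_localPart.1 hy]

include heH in
omit [Fintype Δ] [Finite (ResidueField O)] [IsAdicComplete (maximalIdeal O) O] [IsDomain O]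
  [IsDiscreteValuationRing O] [NeZero L] in
/-- The kernel of corestriction on the localised module is spanned by the `⟨u⟩ x - x`. -/
theorem exists_eq_sum_of_coresLin_eq_zero (hp2 : p ≠ 2) (hfree : FreeLevel p L) (hneg : -1 ∈ K)
    {x : HomMod O S K O} (hx : x ∈ localPart O e (HomMod O S K O))
    (h0 : coresLin S K O x = 0) :
    ∃ y : (ZMod L)ˣ ⧸ K → HomMod O S K O, (∀ q, y q ∈ localPart O e (HomMod O S K O)) ∧
      x = ∑ q, ((X (Sum.inl q.out) : OpRing O L S) • y q - y q) := by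
  obtain ⟨y, hy⟩ := exists_eq_sum_diamond_of_freeLevel (O := O) (A := O) (p := p) hp2 hfree hneg
    (φ := toHomMod.symm x) h0
  refine ⟨fun q => e • toHomMod (y q), fun q => heH.idem _, ?_⟩
  have hy' : x = ∑ q, ((X (Sum.inl q.out) : OpRing O L S) • (toHomMod (y q) : HomMod O S K O) -
      toHomMod (y q)) := by
    refine hy.trans (Finset.sum_congr rfl fun q _ => ?_)
    rw [X_inl_smul]
    rfl
  conv_lhs => rw [← mem_localPart.1 hx, hy', Finset.smul_sum]
  exact Finset.sum_congr rfl fun q _ => by rw [smul_sub, smul_comm]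

include heH heH₀ in
omit [Fintype ((ZMod L)ˣ ⧸ K)] in
/-- If nothing of the residual system lives on `Γ₀(L)`, nothing lives on `ker ψ`. -/
theorem localPart_eq_bot_of_top (hp2 : p ≠ 2) (hfree : FreeLevel p L) (hΔ : IsPGroup p Δ)
    (hψ : Function.Surjective ψ) (hK : ∀ u, u ∈ K ↔ ψ u = 1)
    (hS : ∀ v : ℕ, v.Prime → v ∣ L → v ∈ S)
    (hEis : ∃ ℓ : ℕ, ℓ.Prime ∧ ℓ ∉ S ∧ abar ℓ ≠ 1 + (ℓ : ResidueField O))
    (h0 : localPart O e (HomMod O S (⊤ : Subgroup (ZMod L)ˣ) O) = ⊥) :
    localPart O e (HomMod O S K O) = ⊥ := by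
  obtain ⟨b, hb⟩ := exists_basis_of_isLocalizer S abar heH heH₀ hp2 hfree hΔ hψ hK hS hEis
  have hd : Module.finrank O (localPart O e (HomMod O S (⊤ : Subgroup (ZMod L)ˣ) O)) = 0 := by
    rw [h0, finrank_bot]
  rw [eq_bot_iff]
  intro x hx
  obtain ⟨c, hc⟩ := hb.2 ⟨x, hx⟩
  have hc0 : c = 0 := Finsupp.ext fun iq => absurd iq.1.2 (by omega)
  rw [hc0] at hc
  rw [Submodule.mem_bot]
  exact (congrArg Subtype.val hc).symm.trans (by simp)

end Free

end Fermat.Agent.Lifting.Module
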