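import Fermat.Agent.Lifting.Module.Eigen

/-!
# The localised part is parabolic

Complex homomorphisms on `Γ_H` fixed by the localiser of a non-Eisenstein system are parabolic:
an operator with parabolic image is invertible on them.
-/

set_option autoImplicit false
set_option linter.overlappingInstances false

noncomputable section

namespace Fermat.Agent.Lifting.Module

open IsLocalRing MvPolynomial ModularCurve.Period
open Fermat.Agent.RT.GammaH

variable {O : Type} [CommRing O] [Algebra O ℂ] {L : ℕ} [NeZero L] {S : Finset ℕ}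
  {K : Subgroup (ZMod L)ˣ}

/-- An operator relation on `Hom(Γ_H, O)` holds on `Hom(Γ_H, ℂ)`. -/
theorem opC_eq_of_smul_eq {a b : OpRing O L S} (h : ∀ x : HomMod O S K O, a • x = b • x)
    (φ : HomC K) : opC O S K a φ = opC O S K b φ := by
  obtain ⟨r, w, ψ, hψ⟩ := exists_int_decomp φ
  have hdec : φ = ∑ i, w i • toHomC (O := O) (S := S)
      (toHomMod ((Int.castRingHom O).toAddMonoidHom.comp (ψ i)) : HomMod O S K O) := by
    refine AddMonoidHom.ext fun γ => ?_
    rw [hψ γ, AddMonoidHom.finsetSum_apply]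
    refine Finset.sum_congr rfl fun i _ => ?_
    show _ = w i * algebraMap O ℂ ((ψ i γ : ℤ) : O)
    rw [map_intCast]
  rw [hdec, map_sum, map_sum]
  refine Finset.sum_congr rfl fun i _ => ?_
  rw [map_smul, map_smul, ← toHomC_smul, ← toHomC_smul, h]

variable [IsLocalRing O] {abar : ℕ → ResidueField O}

/-- What the localiser fixes is parabolic. -/
theorem mem_parabolicHoms_of_localizer (hL : Squarefree L) (hneg : -1 ∈ K)
    (hS : ∀ v : ℕ, v.Prime → v ∣ L → v ∈ S)
    (hEis : ∃ ℓ : ℕ, ℓ.Prime ∧ ℓ ∉ S ∧ abar ℓ ≠ 1 + (ℓ : ResidueField O))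
    {e : OpRing O L S} (he : IsLocalizer (resIdeal S abar L) (HomMod O S K O) e) {φ : HomC K}
    (hφ : opC O S K e φ = φ) : φ ∈ parabolicHoms ℂ (gammaH L K) ℂ := by
  obtain ⟨ℓ, hℓ, hℓS, hne⟩ := hEis
  obtain ⟨P, hP, hpar⟩ := exists_parabolicOp (K := K) S abar hL hneg hℓ hℓS
    (fun h => hℓS (hS ℓ hℓ h)) hne
  obtain ⟨t', ht'⟩ := he.invert P hP
  have h1 := opC_eq_of_smul_eq ht' φ
  rw [hφ, mul_assoc, map_mul, Module.End.mul_apply] at h1
  rw [← h1]
  exact hpar ℂ (toHomMod _)

/-- An eigenclass of the localised system is parabolic. -/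
theorem mem_parabolicHoms_of_eigen (hL : Squarefree L) (hneg : -1 ∈ K)
    (hS : ∀ v : ℕ, v.Prime → v ∣ L → v ∈ S)
    (hEis : ∃ ℓ : ℕ, ℓ.Prime ∧ ℓ ∉ S ∧ abar ℓ ≠ 1 + (ℓ : ResidueField O))
    {e : OpRing O L S} (he : IsLocalizer (resIdeal S abar L) (HomMod O S K O) e) {φ : HomC K}
    {z : ℂ} (hz : z ≠ 0) (hφ : opC O S K e φ = z • φ) :
    φ ∈ parabolicHoms ℂ (gammaH L K) ℂ := by
  refine mem_parabolicHoms_of_localizer hL hneg hS hEis he ?_
  have h1 := opC_eq_of_smul_eq (a := e * e) (b := e) (fun x => by rw [mul_smul, he.idem]) φ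
  rw [map_mul, Module.End.mul_apply, hφ, map_smul, hφ] at h1
  rw [hφ]
  exact smul_right_injective _ hz h1

end Fermat.Agent.Lifting.Module
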