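import Fermat.Agent.Lifting.Module.Descent

/-!
# The Hecke module of the localised cohomology of `Γ_H`

`heckeModule` is `localPart O e (Hom(Γ_H, O))` as a `RT.HeckeModule`, for every odd `p`. Its
operators are those of `RT.GammaH`: `heckeModule_T_apply`, `heckeModule_dia_apply`, and its
algebra is the image of the polynomial algebra, `range_localAct`.
-/

set_option autoImplicit false
set_option linter.overlappingInstances false

noncomputable section

namespace Fermat.Agent.Lifting.Module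

open IsLocalRing MvPolynomial ModularCurve.Period CongruenceSubgroup ModularFormClass
open Fermat.Agent.RT.GammaH
open Fermat.Agent.RT (HeckeModule IsCongruentLevel halfInvExp)
open scoped MatrixGroups ModularForm

variable {O : Type} [CommRing O] [IsDomain O] [IsDiscreteValuationRing O]
  [IsAdicComplete (maximalIdeal O) O] [Finite (ResidueField O)] [CharZero O]
  {p : ℕ} [Fact p.Prime] [CharP (ResidueField O) p]
  {L : ℕ} [NeZero L] {Δ : Type} [CommGroup Δ] [Fintype Δ] {ψ : (ZMod L)ˣ →* Δ}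
  {S : Finset ℕ} {abar : ℕ → ResidueField O}

variable (p ψ S abar) in
/-- What the constructor needs. -/
structure Setup : Prop where
  ne_two : p ≠ 2
  sqfree : Squarefree L
  pGroup : IsPGroup p Δ
  surj : Function.Surjective ψ
  primes : ∀ v : ℕ, v.Prime → v ∣ L → v ∈ S
  notEis : ∃ ℓ : ℕ, ℓ.Prime ∧ ℓ ∉ S ∧ abar ℓ ≠ 1 + (ℓ : ResidueField O)
  free : FreeLevel p L
  drop : CanDrop p S abar L

omit [IsDomain O] [IsDiscreteValuationRing O] [IsAdicComplete (maximalIdeal O) O]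
  [Finite (ResidueField O)] [CharZero O] [Fact p.Prime] [CharP (ResidueField O) p] [NeZero L]
  [Fintype Δ] in
theorem mem_ker_iff (u : (ZMod L)ˣ) : u ∈ ψ.ker ↔ ψ u = 1 := MonoidHom.mem_ker

/-- One localiser for `ker ψ` and `Γ₀(L)`. -/
theorem exists_localizer_pair :
    ∃ e : OpRing O L S, IsLocalizer (resIdeal S abar L) (HomMod O S ψ.ker O) e ∧
      IsLocalizer (resIdeal S abar L) (HomMod O S (⊤ : Subgroup (ZMod L)ˣ) O) e := by
  obtain ⟨e, he⟩ := exists_isLocalizer (O := O) (resIdeal S abar L)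
    (HomMod O S ψ.ker O × HomMod O S (⊤ : Subgroup (ZMod L)ˣ) O)
  exact ⟨e, he.of_injective (LinearMap.inl (OpRing O L S) _ _) LinearMap.inl_injective,
    he.of_injective (LinearMap.inr (OpRing O L S) _ _) LinearMap.inr_injective⟩

variable (e : OpRing O L S)

omit [IsAdicComplete (maximalIdeal O) O] [Finite (ResidueField O)] [CharZero O] [NeZero L]
  [Fintype Δ] in
theorem localAct_inl_congr {u v : (ZMod L)ˣ} (h : ψ u = ψ v) :
    localAct O e (HomMod O S ψ.ker O) (X (Sum.inl u)) =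
      localAct O e (HomMod O S ψ.ker O) (X (Sum.inl v)) :=
  LinearMap.ext fun x => Subtype.ext (by
    rw [coe_localAct_apply, coe_localAct_apply, X_inl_smul, X_inl_smul,
      diamond_congr_ker mem_ker_iff h])

/-- The diamond operators on the localised module. -/
def moduleDia (hψ : Function.Surjective ψ) :
    Δ →* Module.End O (localPart O e (HomMod O S ψ.ker O)) where
  toFun δ := localAct O e (HomMod O S ψ.ker O) (X (Sum.inl (psiInv hψ δ)))
  map_one' := LinearMap.ext fun x => Subtype.ext (by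
    rw [coe_localAct_apply, X_inl_smul]
    exact diamond_of_mem O (MonoidHom.mem_ker.2 (Function.surjInv_eq hψ 1)) _)
  map_mul' δ δ' := by
    rw [localAct_inl_congr e (v := psiInv hψ δ * psiInv hψ δ') (by
      rw [map_mul]; simp only [psiInv, Function.surjInv_eq hψ]), ← map_mul]
    refine LinearMap.ext fun x => Subtype.ext ?_
    rw [coe_localAct_apply, coe_localAct_apply, mul_smul, X_inl_smul, X_inl_smul, X_inl_smul]
    exact diamond_mul O _ _ _

omit [IsAdicComplete (maximalIdeal O) O] [Finite (ResidueField O)] [CharZero O] [NeZero L]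
  [Fintype Δ] in
theorem moduleDia_psi (hψ : Function.Surjective ψ) (u : (ZMod L)ˣ) :
    moduleDia e hψ (ψ u) = localAct O e (HomMod O S ψ.ker O) (X (Sum.inl u)) :=
  localAct_inl_congr e (Function.surjInv_eq hψ (ψ u))

variable (ψ) in
/-- The Hecke operators on the localised module. -/
def moduleT (ℓ : ℕ) : Module.End O (localPart O e (HomMod O S ψ.ker O)) :=
  if h : ℓ.Prime ∧ ℓ ∉ S then localAct O e (HomMod O S ψ.ker O) (X (Sum.inr ⟨ℓ, h⟩)) else 0

omit [IsAdicComplete (maximalIdeal O) O] [Finite (ResidueField O)] [CharZero O] [NeZero L]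
  [Fintype Δ] in
theorem moduleT_eq (ℓ : {ℓ : ℕ // ℓ.Prime ∧ ℓ ∉ S}) :
    moduleT ψ e ℓ.1 = localAct O e (HomMod O S ψ.ker O) (X (Sum.inr ℓ)) := by
  rw [moduleT, dif_pos ℓ.2]

omit [IsAdicComplete (maximalIdeal O) O] [Finite (ResidueField O)] [CharZero O] [NeZero L]
  [Fintype Δ] in
/-- The algebra of the module is the image of the polynomial algebra. -/
theorem range_localAct (hψ : Function.Surjective ψ) :
    (localAct O e (HomMod O S ψ.ker O)).range =
      Algebra.adjoin O (Set.range (moduleDia e hψ) ∪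
        moduleT ψ e '' {ℓ | ℓ.Prime ∧ ℓ ∉ S}) := by
  refine le_antisymm ?_ (Algebra.adjoin_le ?_)
  · rintro _ ⟨a, rfl⟩
    show localAct O e (HomMod O S ψ.ker O) a ∈ _
    induction a using MvPolynomial.induction_on with
    | C c =>
      rw [← algebraMap_eq, AlgHom.commutes]
      exact Subalgebra.algebraMap_mem _ c
    | add a b ha hb => rw [map_add]; exact add_mem ha hb
    | mul_X a i ha =>
      rw [map_mul]
      refine mul_mem ha (Algebra.subset_adjoin ?_)
      rcases i with u | ℓ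
      · exact Or.inl ⟨ψ u, moduleDia_psi e hψ u⟩
      · exact Or.inr ⟨ℓ.1, ℓ.2, moduleT_eq e ℓ⟩
  · rintro _ (⟨δ, rfl⟩ | ⟨ℓ, hℓ, rfl⟩)
    · exact ⟨_, rfl⟩
    · exact ⟨_, (moduleT_eq e ⟨ℓ, hℓ⟩).symm⟩

variable {e} (hs : Setup p ψ S abar) (heH : IsLocalizer (resIdeal S abar L) (HomMod O S ψ.ker O) e)
  (heH₀ : IsLocalizer (resIdeal S abar L) (HomMod O S (⊤ : Subgroup (ZMod L)ˣ) O) e)

omit [IsAdicComplete (maximalIdeal O) O] [Finite (ResidueField O)] [CharZero O]
  [CharP (ResidueField O) p] [NeZero L] in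
include hs in
theorem Setup.odd_card : Odd (Nat.card Δ) := by
  obtain ⟨k, hk⟩ := IsPGroup.iff_card.1 hs.pGroup
  rw [hk]
  exact (Nat.Prime.odd_of_ne_two Fact.out hs.ne_two).pow

omit [IsAdicComplete (maximalIdeal O) O] [Finite (ResidueField O)] [CharZero O]
  [CharP (ResidueField O) p] [Fact p.Prime] [Fintype Δ] [NeZero L] in
include hs in
theorem Setup.card_quotient : Nat.card ((ZMod L)ˣ ⧸ ψ.ker) = Nat.card Δ := by
  obtain ⟨E, -⟩ := exists_deltaEquiv (K := ψ.ker) mem_ker_iff hs.surj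
  exact (Nat.card_congr E).symm

omit [IsAdicComplete (maximalIdeal O) O] [Finite (ResidueField O)] [CharZero O]
  [CharP (ResidueField O) p] [NeZero L] [Fintype Δ] in
include hs in
theorem Setup.neg_one_mem : -1 ∈ ψ.ker := neg_one_mem_ker ψ hs.ne_two hs.pGroup

include hs heH in
omit [CharP (ResidueField O) p] in
/-- The algebra of the localised module is reduced. -/
theorem isReduced_algebra :
    IsReduced (Algebra.adjoin O (Set.range (moduleDia e hs.surj) ∪
      moduleT ψ e '' {ℓ | ℓ.Prime ∧ ℓ ∉ S})) := by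
  obtain ⟨σ, hσ⟩ := exists_injective_complex O
  let : Algebra O ℂ := σ.toAlgebra
  obtain ⟨ℓ, hℓ, hℓS, hne⟩ := hs.notEis
  obtain ⟨P, hP, hpar⟩ := exists_parabolicOp (K := ψ.ker) S abar hs.sqfree hs.neg_one_mem hℓ hℓS
    (fun h => hℓS (hs.primes ℓ hℓ h)) hne
  constructor
  rintro ⟨x, hx⟩ ⟨n, hn⟩
  obtain ⟨a, ha⟩ : x ∈ (localAct O e (HomMod O S ψ.ker O)).range := range_localAct e hs.surj ▸ hx
  refine Subtype.ext (LinearMap.ext fun y => Subtype.ext ?_)
  have h0 : localAct O e (HomMod O S ψ.ker O) (a ^ n) = 0 := by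
    rw [map_pow, show localAct O e (HomMod O S ψ.ker O) a = x from ha]
    exact congrArg Subtype.val hn
  have h1 : a • (y : HomMod O S ψ.ker O) = 0 := by
    refine smul_eq_zero_of_pow_smul hs.neg_one_mem hs.sqfree (by
      rw [hs.card_quotient]; exact hs.odd_card) hs.primes hσ heH hP
      (fun φ => hpar ℂ φ) y.2 (n := n) ?_
    exact congrArg Subtype.val (LinearMap.congr_fun h0 y)
  show ((x y : localPart O e (HomMod O S ψ.ker O)) : HomMod O S ψ.ker O) = _
  rw [← ha]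
  exact h1

include hs heH in
omit [IsAdicComplete (maximalIdeal O) O] [CharZero O] [CharP (ResidueField O) p] [Fintype Δ] in
/-- `T_ℓ` is residually `abar ℓ`. -/
theorem moduleT_residual (ℓ : ℕ) (hℓ : ℓ.Prime) (hℓS : ℓ ∉ S) (a : O)
    (ha : residue O a = abar ℓ) :
    ∃ n : ℕ, ∀ x : localPart O e (HomMod O S ψ.ker O),
      ((moduleT ψ e ℓ - a • (1 : Module.End O (localPart O e (HomMod O S ψ.ker O)))) ^ n) x ∈
        (maximalIdeal O) • (⊤ : Submodule O (localPart O e (HomMod O S ψ.ker O))) := by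
  set r : OpRing O L S := X (Sum.inr ⟨ℓ, hℓ, hℓS⟩) - C a with hr
  have hrm : r ∈ resIdeal S abar L := by
    rw [mem_resIdeal, hr, map_sub, opRes_inr, ← algebraMap_eq, AlgHom.commutes,
      ResidueField.algebraMap_eq, ha, sub_self]
  obtain ⟨n, hn⟩ := heH.exists_pow_smul_mem (O := O) hrm (resIdeal_ne_top S abar)
  refine ⟨n, fun x => ?_⟩
  have hT : moduleT ψ e ℓ - a • (1 : Module.End O _) = localAct O e (HomMod O S ψ.ker O) r := by
    rw [hr, map_sub, ← moduleT_eq e ⟨ℓ, hℓ, hℓS⟩, ← algebraMap_eq, AlgHom.commutes,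
      Algebra.algebraMap_eq_smul_one]
  rw [hT, ← map_pow]
  suffices key : ∀ z ∈ maximalIdeal O • (localPart O e (HomMod O S ψ.ker O)), ∀ w : (localPart O e (HomMod O S ψ.ker O)), (w : HomMod O S ψ.ker O) = z →
      w ∈ maximalIdeal O • (⊤ : Submodule O (localPart O e (HomMod O S ψ.ker O))) from
    key _ (hn x x.2) _ (coe_localAct_apply _ x)
  intro z hz w hw
  have hmap : (maximalIdeal O • (⊤ : Submodule O (localPart O e (HomMod O S ψ.ker O)))).map (localPart O e (HomMod O S ψ.ker O)).subtype = maximalIdeal O • (localPart O e (HomMod O S ψ.ker O)) := by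
    rw [Submodule.map_smul'', Submodule.map_top, Submodule.range_subtype]
  rw [← hmap] at hz
  obtain ⟨w', hw', rfl⟩ := Submodule.mem_map.1 hz
  rwa [Subtype.ext hw] at *

include hs heH heH₀ in
/-- The forms behind the systems of the localised module. -/
theorem eigen_algebra (θ : Algebra.adjoin O (Set.range (moduleDia e hs.surj) ∪
      moduleT ψ e '' {ℓ | ℓ.Prime ∧ ℓ ∉ S}) →+* ℂ) :
    ∃ (L' : ℕ) (g : CuspForm (Gamma0 L') 2), g.IsNewform ∧ L' ∣ L ^ 2 ∧
      (∀ (ℓ : ℕ) (hℓ : ℓ.Prime) (hℓS : ℓ ∉ S) (u : (ZMod L)ˣ), (u : ZMod L) = (ℓ : ZMod L) →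
        qCoeff g ℓ =
          θ (⟨moduleDia e hs.surj (ψ u), Algebra.subset_adjoin (Or.inl ⟨_, rfl⟩)⟩ ^ halfInvExp Δ *
            ⟨moduleT ψ e ℓ, Algebra.subset_adjoin (Or.inr ⟨ℓ, ⟨hℓ, hℓS⟩, rfl⟩)⟩)) ∧
      (∀ v : ℕ, v.Prime → v ∣ L → (v ^ 2 ∣ L' ↔ ∃ u : (ZMod L)ˣ,
        ((u : ZMod L).cast : ZMod (L / v)) = 1 ∧
          θ ⟨moduleDia e hs.surj (ψ u), Algebra.subset_adjoin (Or.inl ⟨_, rfl⟩)⟩ ≠ 1)) ∧
      (∀ v : ℕ, v.Prime → v ∣ L → ¬ v ∣ L' → IsCongruentLevel S abar (L / v)) ∧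
      ∃ f : CuspForm (Gamma1 L) 2, qCoeff f 1 = 1 ∧
        (∀ (γ : Gamma0 L) (u : (ZMod L)ˣ), Gamma0Map L γ = (u : ZMod L) →
            (⇑f) ∣[(2 : ℤ)] (γ : Matrix.SpecialLinearGroup (Fin 2) ℤ) =
              θ ⟨moduleDia e hs.surj (ψ u), Algebra.subset_adjoin (Or.inl ⟨_, rfl⟩)⟩ • ⇑f) ∧
        (∀ (ℓ : ℕ) (hℓ : ℓ.Prime) (hℓS : ℓ ∉ S), qCoeff f ℓ =
          θ ⟨moduleT ψ e ℓ, Algebra.subset_adjoin (Or.inr ⟨ℓ, ⟨hℓ, hℓS⟩, rfl⟩)⟩) ∧
        ∀ (ℓ : ℕ) (_hℓ : ℓ.Prime) (_hℓS : ℓ ∉ S) (u : (ZMod L)ˣ), (u : ZMod L) = (ℓ : ZMod L) →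
          ∀ n : ℕ, qCoeff f (n * ℓ) +
              (if ℓ ∣ n then
                θ ⟨moduleDia e hs.surj (ψ u), Algebra.subset_adjoin (Or.inl ⟨_, rfl⟩)⟩ * ℓ *
                  qCoeff f (n / ℓ) else 0) =
            qCoeff f ℓ * qCoeff f n := by
  classical
  let σ : O →+* ℂ := θ.comp (algebraMap O (Algebra.adjoin O (Set.range (moduleDia e hs.surj) ∪
      moduleT ψ e '' {ℓ | ℓ.Prime ∧ ℓ ∉ S})))
  have hσ : Function.Injective σ := by
    rw [RingHom.injective_iff_ker_eq_bot]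
    by_contra hne
    have hmax : RingHom.ker σ = maximalIdeal O :=
      eq_maximalIdeal (Ideal.IsPrime.isMaximal (RingHom.ker_isPrime σ) hne)
    have h0 : σ (p : O) = 0 := by
      rw [← RingHom.mem_ker, hmax, ← residue_eq_zero_iff, map_natCast]
      exact CharP.cast_eq_zero _ p
    rw [map_natCast] at h0
    exact (Fact.out : p.Prime).ne_zero (Nat.cast_eq_zero.1 h0)
  let : Algebra O ℂ := σ.toAlgebra
  have hinj : Function.Injective (algebraMap O ℂ) := hσ
  let Φ : OpRing O L S →ₐ[O] (Algebra.adjoin O (Set.range (moduleDia e hs.surj) ∪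
      moduleT ψ e '' {ℓ | ℓ.Prime ∧ ℓ ∉ S})) := (localAct O e (HomMod O S ψ.ker O)).codRestrict _ fun a =>
    (range_localAct e hs.surj).le ⟨a, rfl⟩
  let θ' : OpRing O L S →ₐ[O] ℂ :=
    { θ.comp Φ.toRingHom with
      commutes' := fun c => congrArg θ (Φ.commutes c) }
  have hθ' : ∀ a, localAct O e (HomMod O S ψ.ker O) a = 0 → θ' a = 0 := fun a ha => by
    show θ (Φ a) = 0
    rw [show Φ a = 0 from Subtype.ext ha, map_zero]
  obtain ⟨φ, hφ0, hφpar, heig⟩ := exists_parabolic_eigenclass S abar hinj hs.sqfree hs.neg_one_mem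
    hs.primes hs.notEis heH θ' hθ'
  have hu : ∀ u, θ ⟨moduleDia e hs.surj (ψ u), Algebra.subset_adjoin (Or.inl ⟨_, rfl⟩)⟩ =
      (systemChar S θ' hφ0 heig u : ℂ) := fun u =>
    congrArg θ (Subtype.ext (moduleDia_psi e hs.surj u))
  have hl : ∀ ℓ : {ℓ : ℕ // ℓ.Prime ∧ ℓ ∉ S},
      θ ⟨moduleT ψ e ℓ.1, Algebra.subset_adjoin (Or.inr ⟨ℓ.1, ℓ.2, rfl⟩)⟩ = systemVal S θ' ℓ.1 :=
    fun ℓ => (congrArg θ (Subtype.ext (moduleT_eq e ℓ))).trans (systemVal_eq S θ' ℓ).symm
  have hcard := hs.card_quotient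
  obtain ⟨L', g, hg, hdvd, hcoef, hsq, hdesc, f, hf1, hfγ, hfT, hfrec⟩ :=
    exists_newform_of_eigen hs.sqfree hs.neg_one_mem (by rw [hcard]; exact hs.odd_card) S hs.primes
      (systemChar S θ' hφ0 heig) (fun u hu => systemChar_of_mem S θ' hφ0 heig hu)
      (systemVal S θ') hφpar hφ0 (fun u => by rw [coe_systemChar, ← heig, opC_inl])
      (fun ℓ hℓ hℓS => by
        rw [systemVal_eq S θ' ⟨ℓ, hℓ.out, hℓS⟩, ← heig, opC_inr])
  refine ⟨L', g, hg, hdvd, fun ℓ hℓ hℓS u huℓ => ?_, fun v hv hvL => ?_, fun v hv hvL hvL' => ?_,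
    f, hf1, fun γ u hγ => ?_, fun ℓ hℓ hℓS => ?_, fun ℓ hℓ hℓS u huℓ n => ?_⟩
  · rw [hcoef ℓ hℓ hℓS u huℓ, map_mul, map_pow, hu, hl ⟨ℓ, hℓ, hℓS⟩, halfInvExp, hcard]
  · refine (hsq v hv hvL).trans (exists_congr fun u => and_congr_right fun _ => ?_)
    rw [hu, Ne, Ne, Units.val_eq_one]
  · obtain ⟨φ', hφ', hdia', hT'⟩ := hdesc v hv hvL hvL'
    by_cases hfree : FreeLevel p (L / v)
    · exact isCongruentLevel_of_lower S abar hs.ne_two hinj hs.sqfree hs.primes hs.notEis hs.pGroup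
        mem_ker_iff heH θ' hθ' (Nat.div_dvd_of_dvd hvL) hfree hφ'
        (fun u => by rw [hdia', coe_systemChar])
        (fun ℓ hℓ h => by rw [hT' ℓ h.2, systemVal_eq S θ' ⟨ℓ, h⟩])
    · refine hs.drop v hv hvL hfree (isCongruentLevel_of_ne_bot S abar hinj hs.sqfree hs.primes
        hs.notEis heH₀ fun h0 => ?_)
      have hbot := localPart_eq_bot_of_top S abar heH heH₀ hs.ne_two hs.free hs.pGroup hs.surj
        mem_ker_iff hs.primes hs.notEis h0
      have h10 : θ' 1 = 0 := hθ' 1 (LinearMap.ext fun x => Subtype.ext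
        (by
          rw [coe_localAct_apply, one_smul]
          exact (Submodule.mem_bot O).1 (hbot ▸ x.2)))
      rw [map_one] at h10
      exact one_ne_zero h10
  · rw [hu]; exact hfγ γ u hγ
  · rw [hl ⟨ℓ, hℓ, hℓS⟩]; exact hfT ℓ hℓ hℓS
  · rw [hu]; exact hfrec ℓ hℓ hℓS u huℓ n

/-- **The Hecke module of the localised cohomology.** -/
def heckeModule : HeckeModule L ψ S abar where
  M := localPart O e (HomMod O S ψ.ker O)
  d := Module.finrank O (localPart O e (HomMod O S (⊤ : Subgroup (ZMod L)ˣ) O))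
  basis := (exists_basis_of_isLocalizer S abar heH heH₀ hs.ne_two hs.free hs.pGroup hs.surj
    mem_ker_iff hs.primes hs.notEis).choose
  T := moduleT ψ e
  dia := moduleDia e hs.surj
  basis_bijective := (exists_basis_of_isLocalizer S abar heH heH₀ hs.ne_two hs.free hs.pGroup
    hs.surj mem_ker_iff hs.primes hs.notEis).choose_spec
  T_comm ℓ ℓ' := by
    unfold moduleT
    split_ifs <;> simp [← map_mul, mul_comm]
  dia_comm ℓ δ := by
    show moduleT ψ e ℓ * localAct O e (HomMod O S ψ.ker O) _ = _ * moduleT ψ e ℓ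
    unfold moduleT
    split_ifs <;> simp [← map_mul, mul_comm, moduleDia]
  residual := moduleT_residual hs heH
  isReduced := isReduced_algebra hs heH
  eigen := eigen_algebra hs heH heH₀

theorem heckeModule_T (ℓ : {ℓ : ℕ // ℓ.Prime ∧ ℓ ∉ S}) :
    (heckeModule hs heH heH₀).T ℓ.1 = localAct O e (HomMod O S ψ.ker O) (X (Sum.inr ℓ)) :=
  moduleT_eq e ℓ

theorem heckeModule_dia (u : (ZMod L)ˣ) :
    (heckeModule hs heH heH₀).dia (ψ u) = localAct O e (HomMod O S ψ.ker O) (X (Sum.inl u)) :=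
  moduleDia_psi e hs.surj u

omit [IsAdicComplete (maximalIdeal O) O] [Finite (ResidueField O)] [CharZero O] [NeZero L]
  [Fintype Δ] in
/-- `T_ℓ` of the module is the Hecke operator. -/
theorem heckeModule_T_apply (ℓ : ℕ) [hℓ : Fact ℓ.Prime] (hℓS : ℓ ∉ S)
    (x : localPart O e (HomMod O S ψ.ker O)) :
    ((moduleT ψ e ℓ x : localPart O e (HomMod O S ψ.ker O)) : HomMod O S ψ.ker O) =
      hecke L ψ.ker ℓ O (x : HomMod O S ψ.ker O) := by
  rw [moduleT_eq e ⟨ℓ, hℓ.out, hℓS⟩, coe_localAct_apply, X_inr_smul]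

omit [IsAdicComplete (maximalIdeal O) O] [Finite (ResidueField O)] [CharZero O] [NeZero L]
  [Fintype Δ] in
/-- The diamond of the module at `ψ u` is `⟨u⟩`. -/
theorem heckeModule_dia_apply (hψ : Function.Surjective ψ) (u : (ZMod L)ˣ)
    (x : localPart O e (HomMod O S ψ.ker O)) :
    ((moduleDia e hψ (ψ u) x : localPart O e (HomMod O S ψ.ker O)) : HomMod O S ψ.ker O) =
      diamond L ψ.ker O u (x : HomMod O S ψ.ker O) := by
  rw [moduleDia_psi, coe_localAct_apply, X_inl_smul]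

end Fermat.Agent.Lifting.Module
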