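import Fermat.Agent.Lifting.Module.Eigen

/-!
# Descent of the systems to a lower level

An eigenclass of level `R ∣ L` with the system of a localised module of level `L` gives a congruent
form of level `R`. For `p = 3` this uses the freeness hypothesis at `R`; `CanDrop` is what replaces
it when the only prime `≡ 2 (mod 3)` leaves the level.
-/

set_option autoImplicit false
set_option linter.overlappingInstances false

noncomputable section

namespace Fermat.Agent.Lifting.Module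

open IsLocalRing MvPolynomial ModularCurve.Period CongruenceSubgroup ModularFormClass
open Fermat.Agent.RT.GammaH
open Fermat.Agent.RT (IsCongruentForm IsCongruentLevel)

/-- Primes without which the level is not free can be removed from congruent levels. -/
def CanDrop {k : Type} [Field k] (p : ℕ) (S : Finset ℕ) (abar : ℕ → k) (L : ℕ) : Prop :=
  ∀ v : ℕ, v.Prime → v ∣ L → ¬ FreeLevel p (L / v) → IsCongruentLevel S abar L →
    IsCongruentLevel S abar (L / v)

theorem canDrop_of_freeLevel {k : Type} [Field k] {p : ℕ} {S : Finset ℕ} {abar : ℕ → k} {L : ℕ}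
    (h : ∀ v : ℕ, v.Prime → v ∣ L → FreeLevel p (L / v)) : CanDrop p S abar L :=
  fun v hv hvL hn => absurd (h v hv hvL) hn

theorem canDrop_of_ne {k : Type} [Field k] {p : ℕ} (hp : p ≠ 3) (S : Finset ℕ) (abar : ℕ → k)
    (L : ℕ) : CanDrop p S abar L := canDrop_of_freeLevel fun _ _ _ => freeLevel_of_ne hp _

/-- No congruent newform at such a prime is enough. -/
theorem canDrop_of_forall_newform {k : Type} [Field k] {p : ℕ} {S : Finset ℕ} {abar : ℕ → k}
    {L : ℕ} (hL : Squarefree L) (hS : ∀ v : ℕ, v.Prime → v ∣ L → v ∈ S)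
    (h : ∀ v : ℕ, v.Prime → v ∣ L → ¬ FreeLevel p (L / v) →
      ∀ (M : ℕ) (g : CuspForm (Gamma0 M) 2), M ∣ L → g.IsNewform → IsCongruentForm S abar g →
        ¬ v ∣ M) :
    CanDrop p S abar L := by
  rintro v hv hvL hnf ⟨f, hf, φ, hφ⟩
  obtain ⟨M, hM, g, hg, hgf⟩ := ConductorLevel.exists_newform_below hL.ne_zero hf
  have hg' : IsCongruentForm S abar g := ⟨hg.1, φ, fun ℓ hℓ hℓS a ha => hφ ℓ hℓ hℓS a
    (ha.trans (hgf ℓ hℓ fun hd => hℓS (hS ℓ hℓ hd)))⟩
  have hvM := h v hv hvL hnf M g hM hg hg'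
  have hM' : M ∣ L / v := by
    refine ((hv.coprime_iff_not_dvd.2 hvM).symm).dvd_of_dvd_mul_left ?_
    rwa [Nat.mul_div_cancel' hvL]
  obtain ⟨g₁, hg₁, hgg⟩ := ConductorLevel.exists_raise
    (hL.squarefree_of_dvd (Nat.div_dvd_of_dvd hvL)) hM' hg.1
  exact ⟨g₁, hg₁, φ, fun ℓ hℓ hℓS a ha => hφ ℓ hℓ hℓS a
    ((ha.trans (hgg ℓ hℓ fun hd => hℓS (hS ℓ hℓ (hd.trans (Nat.div_dvd_of_dvd hvL))))).trans
      (hgf ℓ hℓ fun hd => hℓS (hS ℓ hℓ hd)))⟩

variable {O : Type} [CommRing O] [IsDomain O] [IsDiscreteValuationRing O]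
  [IsAdicComplete (maximalIdeal O) O] [Finite (ResidueField O)] [CharZero O] [Algebra O ℂ]
  {p : ℕ} [Fact p.Prime] [CharP (ResidueField O) p]
  {L : ℕ} [NeZero L] (S : Finset ℕ) (abar : ℕ → ResidueField O) {K : Subgroup (ZMod L)ˣ}

omit [Finite (ResidueField O)] [CharZero O] [Algebra O ℂ] [Fact p.Prime] in
/-- The quotient by the image of `K` is a `p`-group. -/
theorem isPGroup_quotient_map {Δ : Type} [CommGroup Δ] {ψ : (ZMod L)ˣ →* Δ} (hΔ : IsPGroup p Δ)
    (hK : ∀ u, u ∈ K ↔ ψ u = 1) {R : ℕ} (hR : R ∣ L) :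
    IsPGroup p ((ZMod R)ˣ ⧸ K.map (ZMod.unitsMap hR)) := by
  intro x
  induction x using QuotientGroup.induction_on with | _ x => ?_
  obtain ⟨u, rfl⟩ := ZMod.unitsMap_surjective hR x
  obtain ⟨k, hk⟩ := hΔ (ψ u)
  refine ⟨k, ?_⟩
  rw [← QuotientGroup.mk_pow, ← map_pow, QuotientGroup.eq_one_iff]
  exact Subgroup.mem_map_of_mem _ ((hK _).2 (by rw [map_pow, hk]))

/-- An eigenclass of level `R ∣ L` with a system of level `L` gives a congruent level `R`. -/
theorem isCongruentLevel_of_lower (hp2 : p ≠ 2) (hinj : Function.Injective (algebraMap O ℂ))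
    (hL : Squarefree L) (hS : ∀ v : ℕ, v.Prime → v ∣ L → v ∈ S)
    (hEis : ∃ ℓ : ℕ, ℓ.Prime ∧ ℓ ∉ S ∧ abar ℓ ≠ 1 + (ℓ : ResidueField O))
    {Δ : Type} [CommGroup Δ] {ψ : (ZMod L)ˣ →* Δ} (hΔ : IsPGroup p Δ)
    (hK : ∀ u, u ∈ K ↔ ψ u = 1)
    {e : OpRing O L S} (he : IsLocalizer (resIdeal S abar L) (HomMod O S K O) e)
    (θ : OpRing O L S →ₐ[O] ℂ)
    (hθ : ∀ a, localAct O e (HomMod O S K O) a = 0 → θ a = 0)
    {R : ℕ} (hR : R ∣ L) (hfree : FreeLevel p R)
    {φ' : Additive (gammaH R (K.map (ZMod.unitsMap hR))) →+ ℂ} (hne : φ' ≠ 0)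
    (hdia : ∀ u, diamond R (K.map (ZMod.unitsMap hR)) ℂ (ZMod.unitsMap hR u) φ' =
      θ (X (Sum.inl u)) • φ')
    (hT : ∀ (ℓ : ℕ) [Fact ℓ.Prime] (h : ℓ.Prime ∧ ℓ ∉ S),
      hecke R (K.map (ZMod.unitsMap hR)) ℓ ℂ φ' = θ (X (Sum.inr ⟨ℓ, h⟩)) • φ') :
    IsCongruentLevel S abar R := by
  classical
  have hR0 : NeZero R := ⟨fun h => NeZero.ne L (Nat.eq_zero_of_zero_dvd (h ▸ hR))⟩
  let lift : (ZMod R)ˣ → (ZMod L)ˣ := Function.surjInv (ZMod.unitsMap_surjective hR)
  let f : OpRing O R S →ₐ[O] OpRing O L S := MvPolynomial.rename (Sum.map lift id)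
  have hop : ∀ a, opC O S (K.map (ZMod.unitsMap hR)) a φ' = θ (f a) • φ' := fun a =>
    opC_eq_of_gens S (θ.comp f) (fun i => by
      show _ = θ (f (X i)) • φ'
      rcases i with u | ℓ
      · rw [opC_inl, show f (X (Sum.inl u)) = X (Sum.inl (lift u)) from rename_X _ _]
        conv_lhs => rw [← Function.surjInv_eq (ZMod.unitsMap_surjective hR) u]
        exact hdia (lift u)
      · have : Fact ℓ.1.Prime := ⟨ℓ.2.1⟩
        rw [opC_inr, show f (X (Sum.inr ℓ)) = X (Sum.inr ℓ) from rename_X _ _]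
        exact hT ℓ.1 ℓ.2) a
  have hres : ∀ a, opRes S abar L (f a) = opRes S abar R a := fun a => by
    refine AlgHom.congr_fun (MvPolynomial.algHom_ext
      (f := (opRes S abar L).comp f) (g := opRes S abar R) fun i => ?_) a
    show opRes S abar L (f (X i)) = _
    rcases i with u | ℓ
    · rw [show f (X (Sum.inl u)) = X (Sum.inl (lift u)) from rename_X _ _, opRes_inl, opRes_inl]
    · rw [show f (X (Sum.inr ℓ)) = X (Sum.inr ℓ) from rename_X _ _, opRes_inr, opRes_inr]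
  have := Fintype.ofFinite ((ZMod R)ˣ ⧸ (K.map (ZMod.unitsMap hR)))
  have hΔ' : IsPGroup p ((ZMod R)ˣ ⧸ (K.map (ZMod.unitsMap hR))) := isPGroup_quotient_map hΔ hK hR
  have hker : ∀ u : (ZMod R)ˣ, u ∈ (K.map (ZMod.unitsMap hR)) ↔ QuotientGroup.mk' (K.map (ZMod.unitsMap hR)) u = 1 := fun u =>
    (QuotientGroup.eq_one_iff u).symm
  obtain ⟨e', he'⟩ := exists_isLocalizer (O := O) (resIdeal S abar R)
    (HomMod O S (K.map (ZMod.unitsMap hR)) O × HomMod O S (⊤ : Subgroup (ZMod R)ˣ) O)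
  have heK : IsLocalizer (resIdeal S abar R) (HomMod O S (K.map (ZMod.unitsMap hR)) O) e' :=
    he'.of_injective (LinearMap.inl (OpRing O R S) _ _) LinearMap.inl_injective
  have heT : IsLocalizer (resIdeal S abar R) (HomMod O S (⊤ : Subgroup (ZMod R)ˣ) O) e' :=
    he'.of_injective (LinearMap.inr (OpRing O R S) _ _) LinearMap.inr_injective
  have hz : θ (f e') ≠ 0 := by
    have hfe : f e' ∉ resIdeal S abar L := by
      rw [mem_resIdeal, hres]
      have h1 := he'.sub_one_mem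
      rw [mem_resIdeal, map_sub, map_one, sub_eq_zero] at h1
      rw [h1]
      exact one_ne_zero
    obtain ⟨t', ht'⟩ := theta_localizer he θ hθ hfe
    exact left_ne_zero_of_mul_eq_one ht'
  have hSR : ∀ v : ℕ, v.Prime → v ∣ R → v ∈ S := fun v hv hvR => hS v hv (hvR.trans hR)
  have hbot := ne_bot_of_eigenclass S abar heK hne hz (hop e')
  refine isCongruentLevel_of_ne_bot S abar hinj (hL.squarefree_of_dvd hR) hSR hEis heT fun h0 => ?_
  exact hbot (localPart_eq_bot_of_top (Δ := (ZMod R)ˣ ⧸ K.map (ZMod.unitsMap hR))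
    (ψ := QuotientGroup.mk' (K.map (ZMod.unitsMap hR))) S abar heK heT hp2 hfree hΔ' (QuotientGroup.mk'_surjective (K.map (ZMod.unitsMap hR)))
    hker hSR hEis h0)

end Fermat.Agent.Lifting.Module
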