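import Fermat.Agent.RT.GammaH.Eigen
import Fermat.Agent.RT.GammaH.Residual
import Fermat.Agent.RT.GammaH.Lattice
import Fermat.Agent.RT.GammaH.Embed
import Fermat.Agent.ConductorLevel.Raise
import Fermat.Agent.Lifting.Module.FreeData

/-!
# The systems of the localised cohomology

A complex system of the localised module of `Hom(Γ_H, O)` lives on a parabolic eigenclass; a
nonzero localised module of `Γ₀(M)`, `M` squarefree, gives a congruent form of level `M`; an
eigenclass of lower level with the same system makes the localised module of that level nonzero.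
-/

set_option autoImplicit false
set_option linter.overlappingInstances false

noncomputable section

namespace Fermat.Agent.Lifting.Module

open IsLocalRing MvPolynomial ModularCurve.Period CongruenceSubgroup ModularFormClass
open Fermat.Agent.RT.GammaH
open Fermat.Agent.RT (IsCongruentForm IsCongruentLevel)

variable {O : Type} [CommRing O] [IsLocalRing O] [IsDomain O] [IsPrincipalIdealRing O]
  [Algebra O ℂ] {L : ℕ} [NeZero L] (S : Finset ℕ) (abar : ℕ → ResidueField O)
  {K : Subgroup (ZMod L)ˣ}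

/-- A system of the localised module lives on a parabolic eigenclass. -/
theorem exists_parabolic_eigenclass (hinj : Function.Injective (algebraMap O ℂ))
    (hL : Squarefree L) (hneg : -1 ∈ K) (hS : ∀ v : ℕ, v.Prime → v ∣ L → v ∈ S)
    (hEis : ∃ ℓ : ℕ, ℓ.Prime ∧ ℓ ∉ S ∧ abar ℓ ≠ 1 + (ℓ : ResidueField O))
    {e : OpRing O L S} (he : IsLocalizer (resIdeal S abar L) (HomMod O S K O) e)
    (θ : OpRing O L S →ₐ[O] ℂ)
    (hθ : ∀ a, localAct O e (HomMod O S K O) a = 0 → θ a = 0) :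
    ∃ φ : HomC K, φ ≠ 0 ∧ φ ∈ parabolicHoms ℂ (gammaH L K) ℂ ∧
      ∀ a, opC O S K a φ = θ a • φ := by
  obtain ⟨ℓ, hℓ, hℓS, hne⟩ := hEis
  obtain ⟨P, hP, hpar⟩ := exists_parabolicOp (K := K) S abar hL hneg hℓ hℓS
    (fun h => hℓS (hS ℓ hℓ h)) hne
  exact exists_eigvec hinj he hP (fun φ => hpar ℂ φ) θ hθ

/-- The value of a system at a diamond, as a unit. -/
def systemChar (θ : OpRing O L S →ₐ[O] ℂ) {φ : HomC K} (hne : φ ≠ 0)
    (heig : ∀ a, opC O S K a φ = θ a • φ) : (ZMod L)ˣ →* ℂˣ :=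
  MonoidHom.toHomUnits
    { toFun := fun u => θ (X (Sum.inl u))
      map_one' := by
        refine smul_left_injective ℂ hne ?_
        show θ (X (Sum.inl 1)) • φ = (1 : ℂ) • φ
        rw [← heig, opC_inl, one_smul, diamond_of_mem ℂ (one_mem K)]
      map_mul' := fun u v => by
        refine smul_left_injective ℂ hne ?_
        show θ (X (Sum.inl (u * v))) • φ = (θ (X (Sum.inl u)) * θ (X (Sum.inl v))) • φ
        rw [← map_mul, ← heig, ← heig, map_mul, Module.End.mul_apply, opC_inl, opC_inl, opC_inl,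
          diamond_mul] }

theorem coe_systemChar (θ : OpRing O L S →ₐ[O] ℂ) {φ : HomC K} (hne : φ ≠ 0)
    (heig : ∀ a, opC O S K a φ = θ a • φ) (u : (ZMod L)ˣ) :
    (systemChar S θ hne heig u : ℂ) = θ (X (Sum.inl u)) := rfl

/-- The eigenvalue of a system at `T_ℓ`. -/
def systemVal (θ : OpRing O L S →ₐ[O] ℂ) (ℓ : ℕ) : ℂ :=
  if h : ℓ.Prime ∧ ℓ ∉ S then θ (X (Sum.inr ⟨ℓ, h⟩)) else 0

theorem systemVal_eq (θ : OpRing O L S →ₐ[O] ℂ) (ℓ : {ℓ : ℕ // ℓ.Prime ∧ ℓ ∉ S}) :
    systemVal S θ ℓ.1 = θ (X (Sum.inr ℓ)) := by rw [systemVal, dif_pos ℓ.2]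

omit [IsLocalRing O] [IsDomain O] [IsPrincipalIdealRing O] [NeZero L] in
theorem systemChar_of_mem (θ : OpRing O L S →ₐ[O] ℂ) {φ : HomC K} (hne : φ ≠ 0)
    (heig : ∀ a, opC O S K a φ = θ a • φ) {u : (ZMod L)ˣ} (hu : u ∈ K) :
    systemChar S θ hne heig u = 1 := by
  refine Units.ext (smul_left_injective ℂ hne ?_)
  show θ (X (Sum.inl u)) • φ = (1 : ℂ) • φ
  rw [← heig, opC_inl, one_smul, diamond_of_mem ℂ hu]

/-- A nonzero localised module of `Γ₀(L)` gives a congruent form of level `L`. -/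
theorem isCongruentLevel_of_ne_bot (hinj : Function.Injective (algebraMap O ℂ))
    (hL : Squarefree L) (hS : ∀ v : ℕ, v.Prime → v ∣ L → v ∈ S)
    (hEis : ∃ ℓ : ℕ, ℓ.Prime ∧ ℓ ∉ S ∧ abar ℓ ≠ 1 + (ℓ : ResidueField O))
    {e : OpRing O L S}
    (he : IsLocalizer (resIdeal S abar L) (HomMod O S (⊤ : Subgroup (ZMod L)ˣ) O) e)
    (hne : localPart O e (HomMod O S (⊤ : Subgroup (ZMod L)ˣ) O) ≠ ⊥) :
    IsCongruentLevel S abar L := by
  obtain ⟨θ, hθ⟩ := exists_character hne
  obtain ⟨φ, hφ0, hφpar, heig⟩ :=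
    exists_parabolic_eigenclass S abar hinj hL (Subgroup.mem_top _) hS hEis he θ hθ
  have hone : Nat.card ((ZMod L)ˣ ⧸ (⊤ : Subgroup (ZMod L)ˣ)) = 1 := by
    rw [← Subgroup.index_eq_card, Subgroup.index_top]
  obtain ⟨L', g, hg, hdvd, hcoef, hsq, -, -⟩ := exists_newform_of_eigen hL (Subgroup.mem_top (-1))
    (by rw [hone]; exact odd_one) S hS (systemChar S θ hφ0 heig)
    (fun u hu => systemChar_of_mem S θ hφ0 heig hu) (systemVal S θ) hφpar hφ0
    (fun u => by rw [coe_systemChar, ← heig, opC_inl])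
    (fun ℓ hℓ hℓS => by
      rw [systemVal_eq S θ ⟨ℓ, hℓ.out, hℓS⟩, ← heig, opC_inr])
  have hL' : L' ∣ L := by
    have hL'0 : L' ≠ 0 := fun h => pow_ne_zero 2 (NeZero.ne L) (Nat.eq_zero_of_zero_dvd (h ▸ hdvd))
    rw [Nat.dvd_iff_prime_pow_dvd_dvd]
    intro v k hv hvk
    match k with
    | 0 => simp
    | 1 =>
      rw [pow_one] at hvk ⊢
      exact hv.dvd_of_dvd_pow (hvk.trans hdvd)
    | k + 2 =>
      have hvL : v ∣ L :=
        hv.dvd_of_dvd_pow (((dvd_pow_self v (by omega)).trans hvk).trans hdvd)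
      obtain ⟨u, -, hu⟩ := (hsq v hv hvL).1 ((pow_dvd_pow v (by omega)).trans hvk)
      exact absurd (systemChar_of_mem S θ hφ0 heig (Subgroup.mem_top u)) hu
  obtain ⟨h, hh, hhg⟩ := ConductorLevel.exists_raise hL hL' hg.1
  obtain ⟨red, hred⟩ := exists_red O hinj
  have hincl : ∀ z : integralClosure ℤ ℂ, IsIntegral O (z : ℂ) := fun z => z.2.tower_top
  let incl : integralClosure ℤ ℂ →+* integralClosure O ℂ :=
    (integralClosure ℤ ℂ).val.toRingHom.codRestrict (integralClosure O ℂ) hincl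
  refine ⟨h, hh, red.comp incl, fun ℓ hℓ hℓS a ha => ?_⟩
  have hℓL : ¬ ℓ ∣ L := fun hd => hℓS (hS ℓ hℓ hd)
  have hval : ((incl a : integralClosure O ℂ) : ℂ) = θ (X (Sum.inr ⟨ℓ, hℓ, hℓS⟩)) := by
    show (a : ℂ) = _
    rw [ha, hhg ℓ hℓ hℓL,
      hcoef ℓ hℓ hℓS (ZMod.unitOfCoprime ℓ ((hℓ.coprime_iff_not_dvd).2 hℓL)) rfl, hone,
      ← systemVal_eq S θ ⟨ℓ, hℓ, hℓS⟩]
    simp
  show red (incl a) = _
  rw [red_character he θ hθ hred _ hval, opRes_inr]

omit [IsPrincipalIdealRing O] in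
/-- An eigenclass of a system whose value at the localiser is nonzero. -/
theorem ne_bot_of_eigenclass {e : OpRing O L S}
    (he : IsLocalizer (resIdeal S abar L) (HomMod O S K O) e) {φ : HomC K} (hφ : φ ≠ 0) {z : ℂ}
    (hz : z ≠ 0) (heig : opC O S K e φ = z • φ) :
    localPart O e (HomMod O S K O) ≠ ⊥ := by
  intro hbot
  have he0 : ∀ x : HomMod O S K O, e • x = 0 := fun x =>
    (Submodule.mem_bot O).1 (hbot ▸ he.smul_self_mem x)
  obtain ⟨r, w, ψ, hψ⟩ := exists_int_decomp φ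
  have hdec : φ = ∑ i, w i • toHomC (O := O) (S := S)
      (toHomMod ((Int.castRingHom O).toAddMonoidHom.comp (ψ i)) : HomMod O S K O) := by
    refine AddMonoidHom.ext fun γ => ?_
    rw [hψ γ, AddMonoidHom.finsetSum_apply]
    refine Finset.sum_congr rfl fun i _ => ?_
    show _ = w i * algebraMap O ℂ ((ψ i γ : ℤ) : O)
    rw [map_intCast]
  refine smul_ne_zero hz hφ (heig.symm.trans ?_)
  rw [hdec, map_sum]
  refine Finset.sum_eq_zero fun i _ => ?_
  rw [map_smul, ← toHomC_smul, he0, map_zero, smul_zero]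

omit [IsPrincipalIdealRing O] [IsDomain O] [NeZero L] in
/-- The operators act on an eigenclass of the generators through a system. -/
theorem opC_eq_of_gens {φ : HomC K} (θ : OpRing O L S →ₐ[O] ℂ)
    (h : ∀ i, opC O S K (X i) φ = θ (X i) • φ) (a : OpRing O L S) :
    opC O S K a φ = θ a • φ := by
  induction a using MvPolynomial.induction_on with
  | C c => rw [opC_C, Module.algebraMap_end_apply, ← algebraMap_eq, AlgHom.commutes]
  | add a b ha hb => rw [map_add, map_add, LinearMap.add_apply, ha, hb, add_smul]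
  | mul_X a i ha =>
    rw [map_mul, map_mul, Module.End.mul_apply, h, map_smul, ha, smul_smul, mul_comm]

end Fermat.Agent.Lifting.Module
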